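import Mathlib
import Fermat.Prelude.Def_AlgebraicCurve_DivisorClassGroup
import Fermat.Prelude.Def_ModularCurve_LaurentCoeff
import Fermat.Agent.S24.Places

/-!
# S18, package A, leaf (A3) : functions without zeros and poles are constant (CORE, helper17)

General statement, no modular input: `F / k` a field with a separating generator `t` (S24
`IsSepGen k t`: `t` transcendental, `F / k(t)` finite separable) and `ψ ∈ F` with `ord_Q ψ = 0` at
ALL places `Q` of `F / k`.  Then `ψ` is algebraic over `k`
(`s18ac_isAlgebraic_of_ord_eq_zero`); if moreover `F ⊆ k((q))`, then `ψ` is a constant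
(`s18ac_const_of_isSepGen`).

Route (no Riemann-Roch):
* `ψ` lies in every valuation ring of a place containing `t`, i.e. in every localisation of the
  Dedekind domain `B = intRing k t` (integral closure of `k[t]`, S24), hence `ψ ∈ B`:
  `s18ac_isIntegral_of_ord_nonneg`;
* the same for `t⁻¹`;
* the minimal polynomial of `ψ` over `k(t) = k(t⁻¹)` has coefficients in `k[t] ∩ k[t⁻¹] = k`
  (`s18ac_mem_range_of_mem_adjoin_inv`: reverse polynomials + degrees), so `ψ` is algebraic over `k`;
* `k` is algebraically closed in `k((q))` (`s18ac_eq_algebraMap_of_isAlgebraic`, the lowest-order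
  term argument; proof as in helper27's `S18/Core/NumberField.lean`).
-/

set_option autoImplicit false
set_option linter.unusedSectionVars false
set_option linter.unusedVariables false
set_option linter.style.haveILetI false

noncomputable section

namespace Fermat.Agent.S18

open AlgebraicCurve Polynomial IntermediateField Fermat.Agent.S24 ModularCurve
open scoped IntermediateField.algebraAdjoinAdjoin

section Intersection

variable {k F : Type*} [Field k] [Field F] [Algebra k F]

/-- `k[t] ∩ k[t⁻¹] = k` for a transcendental `t`. -/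
theorem s18ac_mem_range_of_mem_adjoin_inv {t : F} (ht : Transcendental k t) {x : F}
    (h1 : x ∈ Algebra.adjoin k {t}) (h2 : x ∈ Algebra.adjoin k {t⁻¹}) :
    x ∈ Set.range (algebraMap k F) := by
  rw [Algebra.adjoin_singleton_eq_range_aeval] at h1 h2
  obtain ⟨P, rfl⟩ := h1
  obtain ⟨Q, hQ⟩ := h2
  have ht0 : t ≠ 0 := fun h => ht (h ▸ isAlgebraic_zero)
  have hti : t⁻¹ ≠ 0 := inv_ne_zero ht0
  letI : Invertible (t⁻¹ : F) := invertibleOfNonzero hti
  have hrev := eval₂_reverse_mul_pow (algebraMap k F) (t⁻¹ : F) Q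
  rw [invOf_eq_inv, inv_inv] at hrev
  have key : aeval t (X ^ Q.natDegree * P) = aeval t Q.reverse := by
    rw [map_mul, map_pow, aeval_X]
    change _ * aeval t P = _
    have hQ' : aeval t⁻¹ Q = aeval t P := hQ
    rw [← hQ', aeval_def, aeval_def, ← hrev, mul_comm, mul_assoc, ← mul_pow,
      inv_mul_cancel₀ ht0, one_pow, mul_one]
  have hinj : Function.Injective (aeval (R := k) t) := transcendental_iff_injective.mp ht
  have heq := hinj key
  by_cases hP : P = 0
  · subst hP
    exact ⟨0, by simp⟩
  · have hdeg : (X ^ Q.natDegree * P).natDegree = Q.natDegree + P.natDegree := by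
      rw [natDegree_mul (pow_ne_zero _ X_ne_zero) hP, natDegree_X_pow]
    have hle : Q.reverse.natDegree ≤ Q.natDegree := reverse_natDegree_le Q
    have h0 : P.natDegree = 0 := by
      rw [heq] at hdeg
      omega
    obtain ⟨c, rfl⟩ := natDegree_eq_zero.mp h0
    exact ⟨c, by simp⟩

/-- the minimal polynomial over `k(t)` of an element integral over `k[t]` has coefficients in
`k[t]`. -/
theorem s18ac_minpoly_coeff_mem {t : F} (ht : Transcendental k t) {ψ : F}
    (hψ : IsIntegral (Algebra.adjoin k {t}) ψ) (i : ℕ) :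
    ((minpoly k⟮t⟯ ψ).map (algebraMap k⟮t⟯ F)).coeff i ∈ Algebra.adjoin k {t} := by
  haveI := isPrincipalIdealRing_adjoin ht
  have h := minpoly.isIntegrallyClosed_eq_field_fractions' k⟮t⟯ hψ
  rw [h, Polynomial.map_map, ← IsScalarTower.algebraMap_eq, coeff_map]
  exact ((minpoly (Algebra.adjoin k {t}) ψ).coeff i).2

/-- the minimal polynomial only depends on the subfield. -/
theorem s18ac_minpoly_map_congr (E₁ E₂ : IntermediateField k F) (h : E₁ = E₂) (ψ : F) :
    (minpoly E₁ ψ).map (algebraMap E₁ F) = (minpoly E₂ ψ).map (algebraMap E₂ F) := by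
  subst h
  rfl

/-- an element integral over `k[t]` and over `k[t⁻¹]` is algebraic over `k`. -/
theorem s18ac_isAlgebraic_of_isIntegral {t : F} (ht : Transcendental k t) {ψ : F}
    (h1 : IsIntegral (Algebra.adjoin k {t}) ψ) (h2 : IsIntegral (Algebra.adjoin k {t⁻¹}) ψ) :
    IsAlgebraic k ψ := by
  have hc : ∀ i, ((minpoly k⟮t⟯ ψ).map (algebraMap k⟮t⟯ F)).coeff i ∈
      Set.range (algebraMap k F) := by
    intro i
    refine s18ac_mem_range_of_mem_adjoin_inv ht (s18ac_minpoly_coeff_mem ht h1 i) ?_
    rw [s18ac_minpoly_map_congr _ _ (adjoin_inv_eq (K := k) t).symm ψ]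
    exact s18ac_minpoly_coeff_mem (transcendental_inv ht) h2 i
  obtain ⟨p0, hp0⟩ : (minpoly k⟮t⟯ ψ).map (algebraMap k⟮t⟯ F) ∈
      Polynomial.lifts (algebraMap k F) := (lifts_iff_coeff_lifts _).mpr hc
  have hint : IsIntegral k⟮t⟯ ψ := h1.tower_top
  have hq0 : (minpoly k⟮t⟯ ψ).map (algebraMap k⟮t⟯ F) ≠ 0 :=
    ((minpoly.monic hint).map _).ne_zero
  refine ⟨p0, ?_, ?_⟩
  · rintro rfl
    apply hq0
    rw [← hp0]
    exact Polynomial.map_zero _
  · have h3 : (Polynomial.map (algebraMap k F) p0).eval ψ = 0 := by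
      have hp0' : Polynomial.map (algebraMap k F) p0 =
          (minpoly k⟮t⟯ ψ).map (algebraMap k⟮t⟯ F) := hp0
      rw [hp0', eval_map, ← aeval_def, minpoly.aeval]
    rwa [eval_map, ← aeval_def] at h3

end Intersection

section Places

variable {k F : Type*} [Field k] [Field F] [Algebra k F]

/-- an element without poles away from `t = ∞` is integral over `k[t]`. -/
theorem s18ac_isIntegral_of_ord_nonneg {t : F} (ht : IsSepGen k t) {ψ : F}
    (h : ∀ Q : Place k F, t ∈ Q.toValuationSubring → 0 ≤ Q.ord ψ) :
    IsIntegral (Algebra.adjoin k {t}) ψ := by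
  haveI : IsDedekindDomain (intRing k t) := intRing_isDedekindDomain ht
  haveI : IsFractionRing (intRing k t) F := intRing_isFractionRing ht
  have hmem : ψ ∈ (algebraMap (intRing k t) F).range := by
    apply IsDedekindDomain.HeightOneSpectrum.mem_integers_of_valuation_le_one F ψ
    intro w
    have ht' : t ∈ (Place.ofHeightOneSpectrum (K := k) (F := F) w).toValuationSubring := by
      have := algebraMap_mem_ofHeightOneSpectrum (K := k) (F := F) w (genB k t)
      rwa [coe_genB] at this
    exact (mem_ofHeightOneSpectrum_iff (K := k) w ψ).mp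
      (PlaceOrd.mem_of_ord_nonneg _ (h _ ht'))
  obtain ⟨y, rfl⟩ := hmem
  exact y.2

/-- **(A3), algebraic form.**  A nonzero function with `ord_Q ψ = 0` at all places is algebraic over
the constants. -/
theorem s18ac_isAlgebraic_of_ord_eq_zero {t : F} (ht : IsSepGen k t) {ψ : F}
    (h : ∀ Q : Place k F, Q.ord ψ = 0) : IsAlgebraic k ψ :=
  s18ac_isAlgebraic_of_isIntegral ht.transcendental
    (s18ac_isIntegral_of_ord_nonneg ht fun Q _ => (h Q).ge)
    (s18ac_isIntegral_of_ord_nonneg ht.inv fun Q _ => (h Q).ge)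

end Places

section Constants

variable {K : Type*} [Field K]

theorem s18ac_coeff_algebraMap_mul (c : K) (z : LaurentSeries K) (n : ℤ) :
    (algebraMap K (LaurentSeries K) c * z).coeff n = c * z.coeff n := by
  rw [algebraMap_laurentSeries_eq_single, HahnSeries.coeff_single_zero_mul]

theorem s18ac_not_order_pos (x : LaurentSeries K) (hx0 : x ≠ 0) (hx : IsAlgebraic K x) :
    ¬ 0 < x.order := by
  intro hpos
  have hint : IsIntegral K x := hx.isIntegral
  have h0 := minpoly.aeval K x
  rw [aeval_eq_sum_range] at h0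
  simp only [Algebra.smul_def] at h0
  have h1 := congrArg (fun z => z.coeff 0) h0
  simp only [HahnSeries.coeff_sum, HahnSeries.coeff_zero] at h1
  rw [Finset.sum_eq_single 0] at h1
  · rw [pow_zero, s18ac_coeff_algebraMap_mul, HahnSeries.coeff_one, if_pos rfl, mul_one] at h1
    exact minpoly.coeff_zero_ne_zero hint hx0 h1
  · intro i _ hi
    rw [s18ac_coeff_algebraMap_mul]
    have : (x ^ i).coeff 0 = 0 := by
      apply HahnSeries.coeff_eq_zero_of_lt_order
      rw [HahnSeries.order_pow]
      exact nsmul_pos hpos hi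
    rw [this, mul_zero]
  · intro h
    exact absurd (Finset.mem_range.mpr (Nat.succ_pos _)) h

theorem s18ac_order_eq_zero (x : LaurentSeries K) (hx0 : x ≠ 0) (hx : IsAlgebraic K x) :
    x.order = 0 := by
  have h1 := s18ac_not_order_pos x hx0 hx
  have h2 := s18ac_not_order_pos x⁻¹ (inv_ne_zero hx0) hx.inv
  have h3 : x.order + x⁻¹.order = 0 := by
    rw [← HahnSeries.order_mul hx0 (inv_ne_zero hx0), mul_inv_cancel₀ hx0, HahnSeries.order_one]
  omega

/-- the constants are algebraically closed in `K((q))`. -/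
theorem s18ac_eq_algebraMap_of_isAlgebraic (x : LaurentSeries K) (hx : IsAlgebraic K x) :
    x = algebraMap K (LaurentSeries K) (x.coeff 0) := by
  by_contra hne
  have hx' : IsAlgebraic K (x - algebraMap K (LaurentSeries K) (x.coeff 0)) :=
    hx.sub (isAlgebraic_algebraMap _)
  have h0 : x - algebraMap K (LaurentSeries K) (x.coeff 0) ≠ 0 := sub_ne_zero.mpr hne
  have h1 := s18ac_order_eq_zero _ h0 hx'
  have h2 := mt HahnSeries.coeff_order_eq_zero.mp h0
  rw [h1, HahnSeries.coeff_sub, algebraMap_laurentSeries_eq_single,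
    HahnSeries.coeff_single_same, sub_self] at h2
  exact h2 rfl

end Constants

section Main

variable {k : Type*} [Field k]

/-- **(A3), general form.**  `F ⊆ k((q))` with a separating generator: a function with
`ord_Q ψ = 0` at all places of `F / k` is a constant. -/
theorem s18ac_const_of_isSepGen (F : IntermediateField k (LaurentSeries k)) {t : F}
    (ht : IsSepGen k t) (ψ : F) (h : ∀ Q : Place k F, Q.ord ψ = 0) :
    ∃ c : k, ψ = algebraMap k F c := by
  have h1 : IsAlgebraic k ψ := s18ac_isAlgebraic_of_ord_eq_zero ht h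
  have h2 : IsAlgebraic k (ψ : LaurentSeries k) := (IntermediateField.isAlgebraic_iff).mp h1
  exact ⟨(ψ : LaurentSeries k).coeff 0,
    Subtype.ext (s18ac_eq_algebraMap_of_isAlgebraic _ h2)⟩

end Main

end Fermat.Agent.S18
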