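import Mathlib
import Fermat.Statements.S18
import Fermat.Agent.S18.A.ConstCore
import Fermat.Agent.S18.V.Spec

/-!
# S18, package A, leaf (A3) : `s18a_const` (helper17)

An element of `F_k(N)` (`k` the residue field of a valuation ring of `ℚ̄` above `ℓ ∤ N`) all of whose
orders vanish is a constant.  `s18ac_const` takes the separating generator as an explicit hypothesis
(general core: `A/ConstCore.lean`); `s18a_const` (statement VERBATIM from `A/Spec.lean`) feeds it with
`s18v_isSepGen_res` of package V.
-/

set_option autoImplicit false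
set_option linter.unusedSectionVars false
set_option linter.unusedVariables false
set_option linter.style.haveILetI false
set_option synthInstance.maxHeartbeats 400000

noncomputable section

namespace Fermat.Agent.S18

open ModularCurve AlgebraicCurve IsLocalRing

variable (N : ℕ) [NeZero N] {ℓ : ℕ} [Fact ℓ.Prime]
variable (A : ValuationSubring (AlgebraicClosure ℚ))

/-- the residue field of a valuation ring above `ℓ` has characteristic `ℓ`. -/
theorem s18ac_charP (hA : A.LiesOverPrime ℓ) : CharP (ResidueField A) ℓ := by
  rw [CharP.charP_iff_prime_eq_zero (Fact.out : ℓ.Prime)]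
  have hmem : ((ℓ : ℕ) : AlgebraicClosure ℚ) ∈ A := ValuationSubring.nonunits_le hA
  have h1 : (⟨((ℓ : ℕ) : AlgebraicClosure ℚ), hmem⟩ : A) ∈ maximalIdeal A := by
    rw [mem_maximalIdeal, mem_nonunits_iff]
    intro hu
    have hA' : ((ℓ : ℕ) : AlgebraicClosure ℚ) ∈ A.nonunits := hA
    rw [ValuationSubring.mem_nonunits_iff_exists_mem_maximalIdeal] at hA'
    obtain ⟨ha, hm⟩ := hA'
    exact hm hu
  have h2 : ((ℓ : ℕ) : A) = ⟨((ℓ : ℕ) : AlgebraicClosure ℚ), hmem⟩ := Subtype.ext (by simp)
  have h3 : residue A ((ℓ : ℕ) : A) = 0 := by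
    rw [h2]
    exact (residue_eq_zero_iff _).mpr h1
  simpa using h3

/-- (A3) with the separating generator as a hypothesis. -/
theorem s18ac_const
    (hsep : Fermat.Agent.S24.IsSepGen (ResidueField A)
      (⟨jqModC (ResidueField A), jqModC_mem_full (ResidueField A) N⟩ :
        modularFunctionFieldFullC (ResidueField A) N))
    (ψ : modularFunctionFieldFullC (ResidueField A) N)
    (h : ∀ Q : Place (ResidueField A) (modularFunctionFieldFullC (ResidueField A) N),
      Q.ord ψ = 0) :
    ∃ c : ResidueField A,
      ψ = algebraMap (ResidueField A) (modularFunctionFieldFullC (ResidueField A) N) c :=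
  s18ac_const_of_isSepGen (modularFunctionFieldFullC (ResidueField A) N) hsep ψ h

/-- (A3) an element of `F_k(N)` all of whose orders vanish is a constant. -/
theorem s18a_const (hℓN : ¬ ℓ ∣ N) (hA : A.LiesOverPrime ℓ)
    (ψ : modularFunctionFieldFullC (ResidueField A) N) (hψ : ψ ≠ 0)
    (h : ∀ Q : Place (ResidueField A) (modularFunctionFieldFullC (ResidueField A) N),
      Q.ord ψ = 0) :
    ∃ c : ResidueField A,
      ψ = algebraMap (ResidueField A) (modularFunctionFieldFullC (ResidueField A) N) c := by
  haveI : CharP (ResidueField A) ℓ := s18ac_charP A hA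
  exact s18ac_const N A (s18v_isSepGen_res (ℓ := ℓ) (ResidueField A) N hℓN) ψ h

end Fermat.Agent.S18
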