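import Mathlib
import Fermat.Statements.S18

/-!
# S18, package A : definitions (`S18Good`: good integral elements of `𝔸((q))`)
-/

set_option autoImplicit false
set_option linter.unusedSectionVars false
set_option synthInstance.maxHeartbeats 400000

noncomputable section

namespace Fermat.Agent.S18

open ModularCurve AlgebraicCurve IsLocalRing

variable (N : ℕ) [NeZero N]
variable (A : ValuationSubring (AlgebraicClosure ℚ))

/-- `y ∈ 𝔸((q))` is a *good integral element*: its image over `ℚ̄` lies in `F_ℚ̄(N)` and its
reduction lies in `F_k(N)`. -/
def S18Good (y : LaurentSeries A) : Prop :=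
  coeffMap A.subtype y ∈ modularFunctionFieldBar N ∧
    coeffMap (residue A) y ∈ modularFunctionFieldFullC (ResidueField A) N

variable {N A}

/-- the generic fibre element of a good integral element -/
def S18Good.gen {y : LaurentSeries A} (hy : S18Good N A y) : modularFunctionFieldBar N :=
  ⟨coeffMap A.subtype y, hy.1⟩

/-- the special fibre element of a good integral element -/
def S18Good.spec {y : LaurentSeries A} (hy : S18Good N A y) :
    modularFunctionFieldFullC (ResidueField A) N :=
  ⟨coeffMap (residue A) y, hy.2⟩

end Fermat.Agent.S18
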