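import Mathlib
import Fermat.Statements.S18
import Fermat.Agent.S18.A.Defs

/-!
# S18, package A, leaf (A1): `s18a_lift`

Every element of `F_k(N)` is a quotient of reductions of good integral elements.
-/

set_option autoImplicit false
set_option linter.unusedSectionVars false
set_option synthInstance.maxHeartbeats 400000

noncomputable section

namespace Fermat.Agent.S18

open ModularCurve AlgebraicCurve IsLocalRing

/-- a ring homomorphism out of a polynomial ring has image in a subring as soon as the constants
and the variables are mapped into it. -/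
theorem s18al_mem_of_gens {σ R B : Type*} [CommRing R] [CommRing B] (T : Subring B)
    (f : MvPolynomial σ R →+* B) (hC : ∀ a : R, f (MvPolynomial.C a) ∈ T)
    (hX : ∀ i : σ, f (MvPolynomial.X i) ∈ T) (r : MvPolynomial σ R) : f r ∈ T := by
  induction r using MvPolynomial.induction_on with
  | C a => exact hC a
  | add p q hp hq => rw [map_add]; exact T.add_mem hp hq
  | mul_X p i hp => rw [map_mul]; exact T.mul_mem hp (hX i)

theorem s18al_algebraMap_eq_single {R : Type*} [CommRing R] (c : R) :
    algebraMap R (LaurentSeries R) c = HahnSeries.single 0 c := by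
  have h1 : algebraMap R (PowerSeries R) c = PowerSeries.C c := by simp
  rw [HahnSeries.algebraMap_apply', h1, HahnSeries.ofPowerSeries_C]
  rfl

variable (N : ℕ) [NeZero N]
variable (A : ValuationSubring (AlgebraicClosure ℚ))

/-- the divisor `d` of a generator of `F_k(N)` -/
def s18alD (x : divisorExpansionsC (ResidueField A) N) : ℕ := x.2.choose

theorem s18alD_spec (x : divisorExpansionsC (ResidueField A) N) :
    ∃ _ : NeZero (s18alD N A x), s18alD N A x ∣ N ∧
      (x : LaurentSeries (ResidueField A))
        = qExpand (ResidueField A) (s18alD N A x) (jqModC (ResidueField A)) :=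
  x.2.choose_spec

/-- the integral lift of a generator -/
def s18alGen (x : divisorExpansionsC (ResidueField A) N) : LaurentSeries A :=
  haveI := (s18alD_spec N A x).choose
  qExpand A (s18alD N A x) (jqModC A)

theorem s18al_red_gen (x : divisorExpansionsC (ResidueField A) N) :
    coeffMap (residue A) (s18alGen N A x) = x := by
  obtain ⟨h1, h2, h3⟩ := s18alD_spec N A x
  unfold s18alGen
  rw [coeffMap_qExpand, coeffMap_jqModC, h3]

theorem s18al_gen_gen (x : divisorExpansionsC (ResidueField A) N) :
    coeffMap A.subtype (s18alGen N A x) ∈ modularFunctionFieldBar N := by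
  obtain ⟨h1, h2, h3⟩ := s18alD_spec N A x
  unfold s18alGen
  rw [coeffMap_qExpand, coeffMap_jqModC]
  have e : qExpand (AlgebraicClosure ℚ) (s18alD N A x) (jqModC (AlgebraicClosure ℚ))
      = coeffEmb (AlgebraicClosure ℚ) (qExpand ℚ (s18alD N A x) jq) := by
    rw [coeffEmb, coeffMap_qExpand, ← jqModC_rat, coeffMap_jqModC]
  rw [e]
  exact coeffEmb_mem_laurentBaseChange _ (jqd_mem_full N h2)

/-- the integral evaluation of a lifted polynomial -/
def s18alEval (r : MvPolynomial (divisorExpansionsC (ResidueField A) N) A) : LaurentSeries A :=
  MvPolynomial.aeval (s18alGen N A) r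

theorem s18al_red_eval (r : MvPolynomial (divisorExpansionsC (ResidueField A) N) A) :
    coeffMap (residue A) (s18alEval N A r)
      = MvPolynomial.aeval (fun x : divisorExpansionsC (ResidueField A) N =>
          (x : LaurentSeries (ResidueField A))) (MvPolynomial.map (residue A) r) := by
  unfold s18alEval
  induction r using MvPolynomial.induction_on with
  | C a =>
    rw [MvPolynomial.aeval_C, MvPolynomial.map_C, MvPolynomial.aeval_C]
    rw [s18al_algebraMap_eq_single, s18al_algebraMap_eq_single, coeffMap_single]
  | add p q hp hq => rw [map_add, map_add, hp, hq, map_add, map_add]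
  | mul_X p i hp =>
    rw [map_mul, map_mul, hp, MvPolynomial.aeval_X, s18al_red_gen, map_mul, map_mul,
      MvPolynomial.map_X, MvPolynomial.aeval_X]

theorem s18al_gen_eval (r : MvPolynomial (divisorExpansionsC (ResidueField A) N) A) :
    coeffMap A.subtype (s18alEval N A r) ∈ modularFunctionFieldBar N := by
  unfold s18alEval
  refine s18al_mem_of_gens (modularFunctionFieldBar N).toSubfield.toSubring
    ((coeffMap A.subtype).comp (MvPolynomial.aeval (s18alGen N A)).toRingHom) ?_ ?_ r
  · intro a
    show coeffMap A.subtype (MvPolynomial.aeval (s18alGen N A) (MvPolynomial.C a)) ∈ _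
    rw [MvPolynomial.aeval_C]
    have : coeffMap A.subtype (algebraMap A (LaurentSeries A) a)
        = algebraMap (AlgebraicClosure ℚ) (LaurentSeries (AlgebraicClosure ℚ)) (a : AlgebraicClosure ℚ) := by
      rw [s18al_algebraMap_eq_single, s18al_algebraMap_eq_single, coeffMap_single]
      rfl
    rw [this]
    exact (modularFunctionFieldBar N).algebraMap_mem _
  · intro i
    show coeffMap A.subtype (MvPolynomial.aeval (s18alGen N A) (MvPolynomial.X i)) ∈ _
    rw [MvPolynomial.aeval_X]
    exact s18al_gen_gen N A i

theorem s18al_good (r : MvPolynomial (divisorExpansionsC (ResidueField A) N) A) :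
    S18Good N A (s18alEval N A r) := by
  refine ⟨s18al_gen_eval N A r, ?_⟩
  rw [s18al_red_eval]
  have h : (MvPolynomial.aeval (fun x : divisorExpansionsC (ResidueField A) N =>
      (x : LaurentSeries (ResidueField A))) (MvPolynomial.map (residue A) r))
      ∈ Algebra.adjoin (ResidueField A) (divisorExpansionsC (ResidueField A) N) := by
    have := Algebra.adjoin_range_eq_range_aeval (ResidueField A)
      (fun x : divisorExpansionsC (ResidueField A) N => (x : LaurentSeries (ResidueField A)))
    rw [Subtype.range_coe] at this
    rw [this]
    exact ⟨_, rfl⟩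
  exact IntermediateField.algebra_adjoin_le_adjoin _ _ h

/-- (A1) lifting. -/
theorem s18a_lift (φ : modularFunctionFieldFullC (ResidueField A) N) :
    ∃ (y₁ y₂ : LaurentSeries A) (h₁ : S18Good N A y₁) (h₂ : S18Good N A y₂),
      h₂.spec ≠ 0 ∧ h₁.spec = φ * h₂.spec := by
  obtain ⟨r, s, hφ⟩ := (IntermediateField.mem_adjoin_iff (F := ResidueField A)
    (S := divisorExpansionsC (ResidueField A) N) (φ : LaurentSeries (ResidueField A))).mp φ.2
  obtain ⟨r', hr'⟩ := MvPolynomial.map_surjective (residue A) (residue_surjective) r
  obtain ⟨s', hs'⟩ := MvPolynomial.map_surjective (residue A) (residue_surjective) s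
  by_cases hs : MvPolynomial.aeval (fun x : divisorExpansionsC (ResidueField A) N =>
      (x : LaurentSeries (ResidueField A))) s = 0
  · -- `φ = 0`
    have hφ0 : (φ : LaurentSeries (ResidueField A)) = 0 := by
      rw [hφ]
      show MvPolynomial.aeval (fun x : divisorExpansionsC (ResidueField A) N =>
        (x : LaurentSeries (ResidueField A))) r / MvPolynomial.aeval
          (fun x : divisorExpansionsC (ResidueField A) N =>
            (x : LaurentSeries (ResidueField A))) s = 0
      rw [hs, div_zero]
    refine ⟨s18alEval N A 0, s18alEval N A 1, s18al_good N A 0, s18al_good N A 1, ?_, ?_⟩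
    · intro h
      have := congrArg Subtype.val h
      simp only [S18Good.spec] at this
      rw [s18al_red_eval, map_one, map_one] at this
      exact one_ne_zero this
    · apply Subtype.ext
      show coeffMap (residue A) (s18alEval N A 0) = (φ : LaurentSeries (ResidueField A)) * _
      rw [hφ0, zero_mul, s18al_red_eval, map_zero, map_zero]
  · refine ⟨s18alEval N A r', s18alEval N A s', s18al_good N A r', s18al_good N A s', ?_, ?_⟩
    · intro h
      have := congrArg Subtype.val h
      simp only [S18Good.spec] at this
      rw [s18al_red_eval, hs'] at this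
      exact hs this
    · apply Subtype.ext
      show coeffMap (residue A) (s18alEval N A r')
        = (φ : LaurentSeries (ResidueField A)) * coeffMap (residue A) (s18alEval N A s')
      rw [s18al_red_eval, s18al_red_eval, hr', hs', hφ]
      show _ = MvPolynomial.aeval (fun x : divisorExpansionsC (ResidueField A) N =>
        (x : LaurentSeries (ResidueField A))) r / MvPolynomial.aeval
          (fun x : divisorExpansionsC (ResidueField A) N =>
            (x : LaurentSeries (ResidueField A))) s * _
      rw [div_mul_cancel₀ _ hs]

end Fermat.Agent.S18
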