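import Mathlib
import Fermat.Statements.S18
import Fermat.Agent.S18.A.Defs
import Fermat.Agent.S18.Core.Main
import Fermat.Agent.S18.A.Lift
import Fermat.Agent.S18.A.Const

/-!
# S18, package A : the top of the proof (assembly; all leaves proved in the imported files)

`S18.result` is assembled here from

* `s18_core`   : THE CORE CLAIM (packages V, R, D, C + theorem (T)): two integral elements
  `u₁, u₂ ∈ 𝔸((q)) ∩ F_ℚ̄(N)` with the same nonzero reduction and `p ∣ ord_P(u₁/u₂)` at all
  places (`p ≠ ℓ` prime) differ by a `p`-th power;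
* `s18a_lift`  : (A1) every element of `F_k(N)` is a quotient of reductions of integral elements;
* `s18a_const` : (A3) an element of `F_k(N)` with trivial divisor is a constant.
-/

set_option autoImplicit false
set_option linter.unusedSectionVars false
set_option synthInstance.maxHeartbeats 400000

noncomputable section

namespace Fermat.Agent.S18

open ModularCurve AlgebraicCurve IsLocalRing

variable (N : ℕ) [NeZero N] {ℓ : ℕ} [Fact ℓ.Prime]
variable (A : ValuationSubring (AlgebraicClosure ℚ))

/-- THE CORE CLAIM. -/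
theorem s18_core (hℓN : ¬ ℓ ∣ N) (hA : A.LiesOverPrime ℓ) (p : ℕ) (hp : p.Prime) (hpℓ : p ≠ ℓ)
    (u₁ u₂ : LaurentSeries A) (h₁ : S18Good N A u₁) (h₂ : S18Good N A u₂)
    (hred : coeffMap (residue A) u₁ = coeffMap (residue A) u₂)
    (hne : coeffMap (residue A) u₁ ≠ 0)
    (hdiv : ∀ P : Place (AlgebraicClosure ℚ) (modularFunctionFieldBar N),
      (p : ℤ) ∣ P.ord h₁.gen - P.ord h₂.gen) :
    ∃ g : modularFunctionFieldBar N, g ^ p * h₂.gen = h₁.gen :=
  s18_core_main N A hℓN hA p hp hpℓ u₁ u₂ h₁ h₂ hred hne hdiv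


end Fermat.Agent.S18
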