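import Mathlib
import Fermat.Agent.S18.A.Spec
import Fermat.Agent.S24.PlaceOrd

/-!
# S18, package A : assembly of `S18.result` from `s18_core`, `s18a_lift`, `s18a_const`
-/

set_option autoImplicit false
set_option linter.unusedSectionVars false
set_option synthInstance.maxHeartbeats 400000

noncomputable section

namespace Fermat.Agent.S18

open ModularCurve AlgebraicCurve IsLocalRing

variable {N : ℕ} [NeZero N] {ℓ : ℕ} [Fact ℓ.Prime]
variable {A : ValuationSubring (AlgebraicClosure ℚ)}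

theorem s18a_coeffMap_subtype_injective :
    Function.Injective (coeffMap (A.subtype) : LaurentSeries A → LaurentSeries (AlgebraicClosure ℚ)) := by
  intro x y hxy
  ext k
  have := congrArg (fun s => HahnSeries.coeff s k) hxy
  simpa using this

theorem S18Good.one : S18Good N A 1 := by
  refine ⟨?_, ?_⟩
  · rw [map_one]; exact one_mem _
  · rw [map_one]; exact one_mem _

theorem S18Good.mul {x y : LaurentSeries A} (hx : S18Good N A x) (hy : S18Good N A y) :
    S18Good N A (x * y) := by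
  refine ⟨?_, ?_⟩
  · rw [map_mul]; exact mul_mem hx.1 hy.1
  · rw [map_mul]; exact mul_mem hx.2 hy.2

theorem S18Good.pow {x : LaurentSeries A} (hx : S18Good N A x) (n : ℕ) :
    S18Good N A (x ^ n) := by
  refine ⟨?_, ?_⟩
  · rw [map_pow]; exact pow_mem hx.1 n
  · rw [map_pow]; exact pow_mem hx.2 n

theorem S18Good.gen_mul {x y : LaurentSeries A} (hx : S18Good N A x) (hy : S18Good N A y) :
    (hx.mul hy).gen = hx.gen * hy.gen := Subtype.ext (map_mul _ _ _)

theorem S18Good.spec_mul {x y : LaurentSeries A} (hx : S18Good N A x) (hy : S18Good N A y) :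
    (hx.mul hy).spec = hx.spec * hy.spec := Subtype.ext (map_mul _ _ _)

theorem S18Good.gen_pow {x : LaurentSeries A} (hx : S18Good N A x) (n : ℕ) :
    (hx.pow n).gen = hx.gen ^ n := Subtype.ext (map_pow _ _ _)

theorem S18Good.spec_pow {x : LaurentSeries A} (hx : S18Good N A x) (n : ℕ) :
    (hx.pow n).spec = hx.spec ^ n := Subtype.ext (map_pow _ _ _)

theorem S18Good.gen_one : (S18Good.one (N := N) (A := A)).gen = 1 := Subtype.ext (map_one _)

theorem S18Good.spec_one : (S18Good.one (N := N) (A := A)).spec = 1 := Subtype.ext (map_one _)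

theorem S18Good.gen_ne_zero {x : LaurentSeries A} (hx : S18Good N A x) (h : hx.spec ≠ 0) :
    hx.gen ≠ 0 := by
  intro h0
  apply h
  have h1 : coeffMap A.subtype x = 0 := congrArg Subtype.val h0
  have h2 : x = 0 := s18a_coeffMap_subtype_injective (by rw [h1, map_zero])
  apply Subtype.ext
  show coeffMap (residue A) x = 0
  rw [h2, map_zero]


/-- constants are good -/
theorem S18Good.const (c : A) : S18Good N A (HahnSeries.C c) := by
  refine ⟨?_, ?_⟩
  · have : coeffMap A.subtype (HahnSeries.C c) =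
        algebraMap (AlgebraicClosure ℚ) (LaurentSeries (AlgebraicClosure ℚ)) (c : AlgebraicClosure ℚ) := by
      rw [algebraMap_laurentSeries_eq_single]
      exact coeffMap_single _ _ _
    rw [this]
    exact IntermediateField.algebraMap_mem _ _
  · have : coeffMap (residue A) (HahnSeries.C c) =
        algebraMap (ResidueField A) (LaurentSeries (ResidueField A)) (residue A c) := by
      rw [algebraMap_laurentSeries_eq_single]
      exact coeffMap_single _ _ _
    rw [this]
    exact IntermediateField.algebraMap_mem _ _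

theorem S18Good.gen_const (c : A) : (S18Good.const (N := N) c).gen =
    algebraMap (AlgebraicClosure ℚ) (modularFunctionFieldBar N) (c : AlgebraicClosure ℚ) := by
  apply Subtype.ext
  show coeffMap A.subtype (HahnSeries.C c) =
    algebraMap (AlgebraicClosure ℚ) (LaurentSeries (AlgebraicClosure ℚ)) (c : AlgebraicClosure ℚ)
  rw [algebraMap_laurentSeries_eq_single]
  exact coeffMap_single _ _ _

theorem S18Good.spec_const (c : A) : (S18Good.const (N := N) c).spec =
    algebraMap (ResidueField A) (modularFunctionFieldFullC (ResidueField A) N) (residue A c) := by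
  apply Subtype.ext
  show coeffMap (residue A) (HahnSeries.C c) =
    algebraMap (ResidueField A) (LaurentSeries (ResidueField A)) (residue A c)
  rw [algebraMap_laurentSeries_eq_single]
  exact coeffMap_single _ _ _

/-- Every divisor in the closure of the integral principal divisors is `div u₁ - div u₂` for good
integral elements with nonzero reduction, compatibly with a place reduction. -/
theorem s18a_closure
    (r : Place (AlgebraicClosure ℚ) (modularFunctionFieldBar N) →
      Place (ResidueField A) (modularFunctionFieldFullC (ResidueField A) N))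
    (hr : IsPlaceReductionModL A N r)
    (E : Divisor (AlgebraicClosure ℚ) (modularFunctionFieldBar N))
    (hE : E ∈ AddSubgroup.closure (integralPrincipalDivisors A (residue A) N)) :
    ∃ (u₁ u₂ : LaurentSeries A) (h₁ : S18Good N A u₁) (h₂ : S18Good N A u₂),
      h₁.spec ≠ 0 ∧ h₂.spec ≠ 0 ∧
      (∀ P, E P = P.ord h₁.gen - P.ord h₂.gen) ∧
      (∀ Q, Finsupp.mapDomain r E Q = Q.ord h₁.spec - Q.ord h₂.spec) := by
  induction hE using AddSubgroup.closure_induction with
  | mem E hE =>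
    obtain ⟨y, hy, hyk, hne, hD⟩ := hE
    have hg : S18Good N A y := ⟨hy, hyk⟩
    refine ⟨y, 1, hg, S18Good.one, ?_, ?_, ?_, ?_⟩
    · intro h0; exact hne (congrArg Subtype.val h0)
    · rw [S18Good.spec_one]; exact one_ne_zero
    · intro P
      rw [S18Good.gen_one, Place.ord_one, sub_zero]
      exact hD P
    · intro Q
      rw [S18Good.spec_one, Place.ord_one, sub_zero]
      exact hr.2 y hy hyk hne E hD Q
  | zero =>
    refine ⟨1, 1, S18Good.one, S18Good.one, ?_, ?_, ?_, ?_⟩
    · rw [S18Good.spec_one]; exact one_ne_zero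
    · rw [S18Good.spec_one]; exact one_ne_zero
    · intro P; simp
    · intro Q; simp
  | add E E' _ _ hE hE' =>
    obtain ⟨u₁, u₂, h₁, h₂, hs₁, hs₂, hP, hQ⟩ := hE
    obtain ⟨v₁, v₂, k₁, k₂, ks₁, ks₂, kP, kQ⟩ := hE'
    refine ⟨u₁ * v₁, u₂ * v₂, h₁.mul k₁, h₂.mul k₂, ?_, ?_, ?_, ?_⟩
    · rw [S18Good.spec_mul h₁ k₁]; exact mul_ne_zero hs₁ ks₁
    · rw [S18Good.spec_mul h₂ k₂]; exact mul_ne_zero hs₂ ks₂
    · intro P
      rw [S18Good.gen_mul h₁ k₁, S18Good.gen_mul h₂ k₂,
        P.ord_mul (h₁.gen_ne_zero hs₁) (k₁.gen_ne_zero ks₁),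
        P.ord_mul (h₂.gen_ne_zero hs₂) (k₂.gen_ne_zero ks₂), Finsupp.add_apply, hP, kP]
      ring
    · intro Q
      rw [S18Good.spec_mul h₁ k₁, S18Good.spec_mul h₂ k₂, Q.ord_mul hs₁ ks₁, Q.ord_mul hs₂ ks₂,
        Finsupp.mapDomain_add, Finsupp.add_apply, hQ, kQ]
      ring
  | neg E _ hE =>
    obtain ⟨u₁, u₂, h₁, h₂, hs₁, hs₂, hP, hQ⟩ := hE
    refine ⟨u₂, u₁, h₂, h₁, hs₂, hs₁, ?_, ?_⟩
    · intro P
      rw [Finsupp.neg_apply, hP]; ring
    · intro Q
      have : Finsupp.mapDomain r (-E) = - Finsupp.mapDomain r E := by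
        rw [← Finsupp.mapDomain.addMonoidHom_apply, map_neg, Finsupp.mapDomain.addMonoidHom_apply]
      rw [this, Finsupp.neg_apply, hQ]; ring


set_option maxHeartbeats 2000000 in
/-- The prime case. -/
theorem s18a_prime (hℓN : ¬ ℓ ∣ N) (hA : A.LiesOverPrime ℓ) (h : ReductionInputsModL A N)
    (p : ℕ) (hp : p.Prime) (hpℓ : p ≠ ℓ) (z : JZero N) (hpz : p • z = 0)
    (hz : reductionModL A N z = 0) : z = 0 := by
  obtain ⟨D, rfl⟩ := Pic0.mk_surjective z
  set r := placeReductionModL h with hrdef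
  have hr : IsPlaceReductionModL A N r := isPlaceReductionModL_placeReductionModL h
  have hgen : PrincipalGeneratedByIntegral A (residue A) N := h.choose_spec.2
  -- `p • D` is principal
  have h1 : (p • (D : Divisor (AlgebraicClosure ℚ) (modularFunctionFieldBar N))) ∈
      Divisor.principal (K := AlgebraicClosure ℚ) (F := modularFunctionFieldBar N) := by
    have h0 : Pic0.mk (p • D) = 0 := by rw [← hpz]; rfl
    have := (QuotientAddGroup.eq_zero_iff _).mp h0
    rw [AddSubgroup.mem_addSubgroupOf] at this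
    simpa using this
  -- the reduction of `D` is principal
  have h2 : Finsupp.mapDomain r (D : Divisor (AlgebraicClosure ℚ) (modularFunctionFieldBar N)) ∈
      Divisor.principal (K := ResidueField A)
        (F := modularFunctionFieldFullC (ResidueField A) N) := by
    rw [reductionModL_mk h D] at hz
    have := (QuotientAddGroup.eq_zero_iff _).mp hz
    rw [AddSubgroup.mem_addSubgroupOf] at this
    exact this
  obtain ⟨φ, hφ0, hφ⟩ := h2
  obtain ⟨u₁, u₂, g₁, g₂, hs₁, hs₂, hP, hQ⟩ := s18a_closure r hr _ (hgen h1)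
  -- the quotient `ū₁ / (ū₂ φ^p)` has trivial divisor
  have hψ0 : g₁.spec * (g₂.spec * φ ^ p)⁻¹ ≠ 0 :=
    mul_ne_zero hs₁ (inv_ne_zero (mul_ne_zero hs₂ (pow_ne_zero _ hφ0)))
  have hψ : ∀ Q : Place (ResidueField A) (modularFunctionFieldFullC (ResidueField A) N),
      Q.ord (g₁.spec * (g₂.spec * φ ^ p)⁻¹) = 0 := by
    intro Q
    rw [Q.ord_mul hs₁ (inv_ne_zero (mul_ne_zero hs₂ (pow_ne_zero _ hφ0))), Q.ord_inv,
      Q.ord_mul hs₂ (pow_ne_zero _ hφ0), ← zpow_natCast, Q.ord_zpow]
    have e1 := hQ Q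
    rw [Finsupp.mapDomain_smul, Finsupp.smul_apply, hφ Q] at e1
    have : (p • Q.ord φ : ℤ) = (p : ℤ) * Q.ord φ := by simp
    rw [this] at e1
    linarith
  obtain ⟨cb, hcb⟩ := s18a_const N A hℓN hA _ hψ0 hψ
  obtain ⟨c, rfl⟩ := residue_surjective cb
  have hc0 : algebraMap (ResidueField A) (modularFunctionFieldFullC (ResidueField A) N)
      (residue A c) ≠ 0 := by rw [← hcb]; exact hψ0
  obtain ⟨y₁, y₂, k₁, k₂, hk₂, hk⟩ := s18a_lift N A φ
  have hk₁ : k₁.spec ≠ 0 := by rw [hk]; exact mul_ne_zero hφ0 hk₂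
  -- the two integral elements
  have hU₁ : S18Good N A (u₁ * y₂ ^ p) := g₁.mul (k₂.pow p)
  have hU₂ : S18Good N A (HahnSeries.C c * u₂ * y₁ ^ p) :=
    ((S18Good.const (N := N) c).mul g₂).mul (k₁.pow p)
  have eU₁ : hU₁.spec = g₁.spec * k₂.spec ^ p := by
    rw [← S18Good.spec_pow k₂ p]; exact S18Good.spec_mul g₁ (k₂.pow p)
  have eU₂ : hU₂.spec = algebraMap (ResidueField A)
      (modularFunctionFieldFullC (ResidueField A) N) (residue A c) * g₂.spec * k₁.spec ^ p := by
    have e1 : hU₂.spec = ((S18Good.const (N := N) c).mul g₂).spec * (k₁.pow p).spec :=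
      S18Good.spec_mul ((S18Good.const (N := N) c).mul g₂) (k₁.pow p)
    have e2 : ((S18Good.const (N := N) c).mul g₂).spec = (S18Good.const (N := N) c).spec * g₂.spec :=
      S18Good.spec_mul (S18Good.const (N := N) c) g₂
    rw [e1, e2, S18Good.spec_pow k₁ p, S18Good.spec_const c]
  have gU₁ : hU₁.gen = g₁.gen * k₂.gen ^ p := by
    rw [← S18Good.gen_pow k₂ p]; exact S18Good.gen_mul g₁ (k₂.pow p)
  have gU₂ : hU₂.gen = algebraMap (AlgebraicClosure ℚ) (modularFunctionFieldBar N)
      (c : AlgebraicClosure ℚ) * g₂.gen * k₁.gen ^ p := by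
    have e1 : hU₂.gen = ((S18Good.const (N := N) c).mul g₂).gen * (k₁.pow p).gen :=
      S18Good.gen_mul ((S18Good.const (N := N) c).mul g₂) (k₁.pow p)
    have e2 : ((S18Good.const (N := N) c).mul g₂).gen = (S18Good.const (N := N) c).gen * g₂.gen :=
      S18Good.gen_mul (S18Good.const (N := N) c) g₂
    rw [e1, e2, S18Good.gen_pow k₁ p, S18Good.gen_const c]
  have hspec : hU₁.spec = hU₂.spec := by
    have hb : g₂.spec * φ ^ p ≠ 0 := mul_ne_zero hs₂ (pow_ne_zero _ hφ0)
    have e0 : g₁.spec = algebraMap (ResidueField A)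
        (modularFunctionFieldFullC (ResidueField A) N) (residue A c) * (g₂.spec * φ ^ p) :=
      (mul_inv_eq_iff_eq_mul₀ hb).mp hcb
    rw [eU₁, eU₂, hk, e0, mul_pow]
    ring
  have hU₁0 : hU₁.spec ≠ 0 := by rw [eU₁]; exact mul_ne_zero hs₁ (pow_ne_zero _ hk₂)
  have hc0' : algebraMap (AlgebraicClosure ℚ) (modularFunctionFieldBar N)
      (c : AlgebraicClosure ℚ) ≠ 0 := by
    intro h0
    apply hc0
    have : (c : AlgebraicClosure ℚ) = 0 := by simpa using h0
    have : c = 0 := Subtype.ext this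
    rw [this, map_zero, map_zero]
  have hg₁0 := g₁.gen_ne_zero hs₁
  have hg₂0 := g₂.gen_ne_zero hs₂
  have hy₁0 := k₁.gen_ne_zero hk₁
  have hy₂0 := k₂.gen_ne_zero hk₂
  have hordU : ∀ P : Place (AlgebraicClosure ℚ) (modularFunctionFieldBar N),
      P.ord hU₁.gen - P.ord hU₂.gen =
        (p : ℤ) * ((D : Divisor (AlgebraicClosure ℚ) (modularFunctionFieldBar N)) P +
          P.ord k₂.gen - P.ord k₁.gen) := by
    intro P
    rw [gU₁, gU₂, P.ord_mul hg₁0 (pow_ne_zero _ hy₂0),
      P.ord_mul (mul_ne_zero hc0' hg₂0) (pow_ne_zero _ hy₁0), P.ord_mul hc0' hg₂0,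
      Fermat.Agent.S24.PlaceOrd.ord_algebraMap, ← zpow_natCast, ← zpow_natCast, P.ord_zpow,
      P.ord_zpow]
    have e1 := hP P
    rw [Finsupp.smul_apply] at e1
    have : (p • (D : Divisor (AlgebraicClosure ℚ) (modularFunctionFieldBar N)) P : ℤ) =
        (p : ℤ) * (D : Divisor (AlgebraicClosure ℚ) (modularFunctionFieldBar N)) P := by simp
    rw [this] at e1
    linarith
  obtain ⟨g, hg⟩ := s18_core N A hℓN hA p hp hpℓ _ _ hU₁ hU₂
    (congrArg Subtype.val hspec) (fun h0 => hU₁0 (Subtype.ext h0))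
    (fun P => ⟨_, hordU P⟩)
  have hU₁g0 := hU₁.gen_ne_zero hU₁0
  have hU₂g0 : hU₂.gen ≠ 0 := hU₂.gen_ne_zero (by rw [← hspec]; exact hU₁0)
  have hg0 : g ≠ 0 := by
    rintro rfl
    rw [zero_pow hp.ne_zero, zero_mul] at hg
    exact hU₁g0 hg.symm
  -- conclusion
  apply (QuotientAddGroup.eq_zero_iff _).mpr
  rw [AddSubgroup.mem_addSubgroupOf]
  refine ⟨g * k₁.gen * k₂.gen⁻¹, mul_ne_zero (mul_ne_zero hg0 hy₁0) (inv_ne_zero hy₂0), fun P => ?_⟩
  rw [P.ord_mul (mul_ne_zero hg0 hy₁0) (inv_ne_zero hy₂0), P.ord_mul hg0 hy₁0, P.ord_inv]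
  have e2 : P.ord (g ^ p * hU₂.gen) = P.ord hU₁.gen := by rw [hg]
  rw [P.ord_mul (pow_ne_zero _ hg0) hU₂g0, ← zpow_natCast, P.ord_zpow] at e2
  have e3 := hordU P
  have hp0 : (p : ℤ) ≠ 0 := by exact_mod_cast hp.ne_zero
  have e4 : (p : ℤ) * P.ord g = (p : ℤ) * ((D : Divisor (AlgebraicClosure ℚ)
      (modularFunctionFieldBar N)) P + P.ord k₂.gen - P.ord k₁.gen) := by linarith
  have e5 := mul_left_cancel₀ hp0 e4
  linarith


/-- The general case, by induction on `m`. -/
theorem s18a_main (hℓN : ¬ ℓ ∣ N) (hA : A.LiesOverPrime ℓ) (h : ReductionInputsModL A N)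
    (m : ℕ) (hm : ¬ ℓ ∣ m) (z : JZero N) (hmz : m • z = 0)
    (hz : reductionModL A N z = 0) : z = 0 := by
  induction m using Nat.strong_induction_on with
  | _ m ih =>
    rcases Nat.eq_zero_or_pos m with rfl | hpos
    · exact absurd (dvd_zero ℓ) hm
    rcases Nat.eq_or_lt_of_le (Nat.succ_le_of_lt hpos) with h1 | h1
    · rw [← h1] at hmz
      simpa using hmz
    -- `1 < m`
    have hm1 : m ≠ 1 := by omega
    have hp : (Nat.minFac m).Prime := Nat.minFac_prime hm1
    obtain ⟨m', hm'⟩ := Nat.minFac_dvd m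
    have hm'pos : 0 < m' := by
      rcases Nat.eq_zero_or_pos m' with rfl | h0
      · rw [mul_zero] at hm'; omega
      · exact h0
    have hlt : m' < m := by
      rw [hm']
      exact lt_mul_of_one_lt_left hm'pos hp.one_lt
    have hℓm' : ¬ ℓ ∣ m' := fun hd => hm (hm' ▸ Dvd.dvd.mul_left hd _)
    have hpℓ : Nat.minFac m ≠ ℓ := by
      intro he
      exact hm (he ▸ Nat.minFac_dvd m)
    have hw : m' • z = 0 := by
      apply s18a_prime hℓN hA h (Nat.minFac m) hp hpℓ (m' • z)
      · rw [← mul_nsmul', ← hm']; exact hmz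
      · rw [map_nsmul, hz, nsmul_zero]
    exact ih m' hlt hℓm' hw

end Fermat.Agent.S18
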